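/-
helper73, programme MW (S17), brick INST-2b (abstract half): base-point-freeness from a covering
by effective divisors in the same class.

`exists_generates_of_cover` : `X` quasi-compact integral, `D` a Cartier divisor; if every point `x`
lies outside the support of some EFFECTIVE divisor `E = div h * D` linearly equivalent to `D`,
then finitely many of the functions `h` form a family generating `O(D)` (`Inst73.Generates`).
(For the Jacobian: `D = 2Θ'`-type divisor, `E_a = t_a^* D' + t_{-a}^* D'` from the theorem of the
square.)
-/
import Fermat.Agent.MW.Inst73.CaDivFamily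

set_option autoImplicit false
set_option linter.unusedSectionVars false

universe u

open AlgebraicGeometry CategoryTheory

namespace Fermat.Agent.MW.Inst73

open Fermat.Agent.AV.PicDiv86

variable {X : Scheme.{u}} [IsIntegral X]

/-- One effective divisor `E = div h * D`: the function `h` is a section of `O(D)` and generates
it away from the support of `E`. -/
theorem mem_H0_of_eq_div_mul {D E : CaDiv X} {h : X.functionFieldˣ} (hE : E.IsEffective)
    (hED : E = CaDiv.div h * D) : (h : X.functionField) ∈ D.H0 := by
  have h1 : (1 : X.functionField) ∈ E.H0 := CaDiv.one_mem_H0 hE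
  rw [hED, CaDiv.mem_H0_div_mul, one_mul] at h1
  exact h1

theorem inv_mem_stalkSubring_of_notMem_support {D E : CaDiv X} {h : X.functionFieldˣ}
    (hED : E = CaDiv.div h * D) {y : X} (hy : y ∉ E.support) {f : X.functionFieldˣ}
    (hf : D.IsLocalEq y f) :
    ((h : X.functionField) * (f : X.functionField))⁻¹ ∈
      Fermat.Agent.AV.PicDiv86.stalkSubring X y := by
  have h1 : E.IsLocalEq y (h * f) := by
    rw [hED]
    exact (CaDiv.isLocalEq_div h y).mul hf
  have h2 : h * f ∈ stalkUnits X y := (CaDiv.notMem_support_iff_of_isLocalEq h1).1 hy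
  have h3 := (mem_stalkUnits_iff.1 h2).2
  have : ((h : X.functionField) * (f : X.functionField))⁻¹ =
      (((h * f)⁻¹ : X.functionFieldˣ) : X.functionField) := by
    push_cast
    rfl
  rw [this]
  exact h3

/-- **Base-point-freeness from a covering by effective divisors in the class of `D`.** -/
theorem exists_generates_of_cover [CompactSpace X] (D : CaDiv X)
    (hcov : ∀ x : X, ∃ (E : CaDiv X) (h : X.functionFieldˣ),
      E.IsEffective ∧ E = CaDiv.div h * D ∧ x ∉ E.support) :
    ∃ (n : ℕ) (s : Fin n → X.functionField), Generates s D := by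
  classical
  choose E h hE hED hx using hcov
  -- the open cover by the complements of the supports
  have hopen : ∀ x, IsOpen ((E x).support)ᶜ := fun x => (CaDiv.isClosed_support (E x)).isOpen_compl
  have hcover : (Set.univ : Set X) ⊆ ⋃ x, ((E x).support)ᶜ := fun x _ =>
    Set.mem_iUnion.2 ⟨x, hx x⟩
  obtain ⟨t, ht⟩ := isCompact_univ.elim_finite_subcover _ hopen hcover
  -- enumerate the finite subcover
  let e := t.equivFin
  refine ⟨t.card, fun i => ((h (e.symm i).1 : X.functionFieldˣ) : X.functionField), ?_, ?_⟩
  · intro i
    exact mem_H0_of_eq_div_mul (hE _) (hED _)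
  · intro y
    obtain ⟨x, hxt, hy⟩ : ∃ x ∈ t, y ∈ ((E x).support)ᶜ := by
      have := ht (Set.mem_univ y)
      simpa using this
    obtain ⟨f, hf⟩ := D.exists_isLocalEq y
    refine ⟨e ⟨x, hxt⟩, f, hf, ?_, ?_⟩
    · simp only [Equiv.symm_apply_apply]
      exact (h x).ne_zero
    · simp only [Equiv.symm_apply_apply]
      exact inv_mem_stalkSubring_of_notMem_support (hED x) hy hf

end Fermat.Agent.MW.Inst73
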