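/-
helper73, programme MW (S17), brick INST-1: adapter between programme AV's Cartier divisors
(`AV/PicDiv86`: `CaDiv X`, `IsLocalEq`, `stalkLattice`, `H0`, `pullback`, `div`) and the height
machine's families (`MW/HM73`: `SectionsOf`).

`Generates s D` : the finite family `s` of rational functions consists of global sections of `O(D)`
and generates it at every point.  Stable under products (`D * E`), powers, twists by principal
divisors and pull-back along dominant morphisms; two families generating linearly equivalent
divisors `D = div h * E` satisfy the hypotheses `SectionsOf` of the key lemma after twisting by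
`h⁻¹` (`sectionsOf_of_eq_div_mul`).
-/
import Fermat.Agent.AV.PicDiv86.Pullback
import Fermat.Agent.MW.HM73.KLGeom
import Fermat.Agent.MW.HM73.Pullback

set_option autoImplicit false
set_option linter.unusedSectionVars false

universe u

open AlgebraicGeometry CategoryTheory

namespace Fermat.Agent.MW.Inst73

open Fermat.Agent.AV.PicDiv86 Fermat.Agent.MW.HM73

variable {X Y : Scheme.{u}} [IsIntegral X] [IsIntegral Y] {ι ι' : Type*}

/-- The two `stalkSubring`s (AV's and MW's) are the same. -/
theorem stalkSubring_eq (x : X) :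
    Fermat.Agent.AV.PicDiv86.stalkSubring X x = Fermat.Agent.MW.HM73.stalkSubring x := rfl

/-- The family `s` consists of global sections of `O(D)` and generates it at every point. -/
def Generates (s : ι → X.functionField) (D : CaDiv X) : Prop :=
  (∀ i, s i ∈ D.H0) ∧ ∀ x : X, ∃ (i : ι) (f : X.functionFieldˣ), D.IsLocalEq x f ∧ s i ≠ 0 ∧
    (s i * (f : X.functionField))⁻¹ ∈ Fermat.Agent.AV.PicDiv86.stalkSubring X x

theorem Generates.div_mem {s : ι → X.functionField} {D : CaDiv X} (hs : Generates s D)
    (x : X) : ∃ i, s i ≠ 0 ∧ ∀ g ∈ D.stalkLattice x,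
      g / s i ∈ Fermat.Agent.AV.PicDiv86.stalkSubring X x := by
  obtain ⟨i, f, hf, hi, hinv⟩ := hs.2 x
  refine ⟨i, hi, fun g hg => ?_⟩
  have h1 := (CaDiv.mem_stalkLattice_iff_of_isLocalEq hf).1 hg
  have hf0 : (f : X.functionField) ≠ 0 := f.ne_zero
  have : g / s i = g * (f : X.functionField) * (s i * (f : X.functionField))⁻¹ := by
    field_simp
  rw [this]
  exact (Fermat.Agent.AV.PicDiv86.stalkSubring X x).mul_mem h1 hinv

/-- Sections of `O(D)` are sections of the sheaf generated by a generating family. -/
theorem Generates.sectionsOf {s : ι → X.functionField} {D : CaDiv X} (hs : Generates s D)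
    {t : ι' → X.functionField} (ht : ∀ l, t l ∈ D.H0) : SectionsOf s t := by
  intro x
  obtain ⟨i, hi, h⟩ := hs.div_mem x
  exact ⟨i, hi, fun l => h _ (CaDiv.mem_H0.1 (ht l) x)⟩

theorem Generates.sectionsOf_self {s : ι → X.functionField} {D : CaDiv X}
    (hs : Generates s D) : SectionsOf s s := hs.sectionsOf hs.1

/-- Products. -/
theorem Generates.mul {s : ι → X.functionField} {t : ι' → X.functionField} {D E : CaDiv X}
    (hs : Generates s D) (ht : Generates t E) :
    Generates (fun p : ι × ι' => s p.1 * t p.2) (D * E) := by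
  refine ⟨fun p => CaDiv.mul_mem_H0 (hs.1 p.1) (ht.1 p.2), fun x => ?_⟩
  obtain ⟨i, f, hf, hi, hfi⟩ := hs.2 x
  obtain ⟨l, e, he, hl, hel⟩ := ht.2 x
  refine ⟨(i, l), f * e, hf.mul he, mul_ne_zero hi hl, ?_⟩
  have : (s i * t l * ((f * e : X.functionFieldˣ) : X.functionField))⁻¹ =
      (s i * (f : X.functionField))⁻¹ * (t l * (e : X.functionField))⁻¹ := by
    push_cast
    rw [← mul_inv]
    congr 1
    ring
  rw [this]
  exact (Fermat.Agent.AV.PicDiv86.stalkSubring X x).mul_mem hfi hel

/-- Powers (coordinatewise). -/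
theorem Generates.pow {s : ι → X.functionField} {D : CaDiv X} (hs : Generates s D) (n : ℕ) :
    Generates (fun i => s i ^ n) (D ^ n) := by
  refine ⟨fun i => CaDiv.pow_mem_H0 (hs.1 i) n, fun x => ?_⟩
  obtain ⟨i, f, hf, hi, hfi⟩ := hs.2 x
  refine ⟨i, f ^ n, hf.pow n, pow_ne_zero n hi, ?_⟩
  have : (s i ^ n * ((f ^ n : X.functionFieldˣ) : X.functionField))⁻¹ =
      ((s i * (f : X.functionField))⁻¹) ^ n := by
    push_cast
    rw [← mul_pow, inv_pow]
  rw [this]
  exact (Fermat.Agent.AV.PicDiv86.stalkSubring X x).pow_mem hfi n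

/-- Twist by a principal divisor. -/
theorem Generates.twist {s : ι → X.functionField} {D : CaDiv X} (hs : Generates s D)
    (h : X.functionFieldˣ) :
    Generates (fun i => ((h⁻¹ : X.functionFieldˣ) : X.functionField) * s i) (CaDiv.div h * D) := by
  refine ⟨fun i => ?_, fun x => ?_⟩
  · rw [CaDiv.mem_H0]
    intro x
    rw [CaDiv.mem_stalkLattice_div_mul]
    have : ((h⁻¹ : X.functionFieldˣ) : X.functionField) * s i * (h : X.functionField) = s i := by
      have := h.ne_zero
      push_cast
      field_simp
    rw [this]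
    exact CaDiv.mem_H0.1 (hs.1 i) x
  · obtain ⟨i, f, hf, hi, hfi⟩ := hs.2 x
    refine ⟨i, h * f, (CaDiv.isLocalEq_div h x).mul hf,
      mul_ne_zero (Units.ne_zero _) hi, ?_⟩
    have : ((h⁻¹ : X.functionFieldˣ) : X.functionField) * s i *
        ((h * f : X.functionFieldˣ) : X.functionField) = s i * (f : X.functionField) := by
      have := h.ne_zero
      push_cast
      field_simp
    rw [this]
    exact hfi

/-- Pull-back along a dominant morphism. -/
theorem Generates.pullback {s : ι → X.functionField} {D : CaDiv X} (hs : Generates s D)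
    (φ : Y ⟶ X) [IsDominant φ] :
    Generates (fun i => functionFieldMap φ (s i)) (CaDiv.pullback φ D) := by
  refine ⟨fun i => CaDiv.map_mem_H0 φ (hs.1 i), fun y => ?_⟩
  obtain ⟨i, f, hf, hi, hfi⟩ := hs.2 (φ y)
  refine ⟨i, unitsMap φ f, hf.pullback, fun h0 => hi ((map_eq_zero _).mp h0), ?_⟩
  have : (functionFieldMap φ (s i) * ((unitsMap φ f : Y.functionFieldˣ) : Y.functionField))⁻¹ =
      functionFieldMap φ ((s i * (f : X.functionField))⁻¹) := by
    rw [coe_unitsMap, ← map_mul, ← map_inv₀]
  rw [this]
  exact functionFieldMap_mem_stalkSubring φ hfi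

/-- **Linearly equivalent divisors**: if `s` generates `O(D)`, `t` generates `O(E)` and
`D = div h * E`, then `s` and `h⁻¹ · t` generate the same subsheaf of the function field. -/
theorem sectionsOf_of_eq_div_mul {s : ι → X.functionField} {t : ι' → X.functionField}
    {D E : CaDiv X} (hs : Generates s D) (ht : Generates t E) (h : X.functionFieldˣ)
    (hDE : D = CaDiv.div h * E) :
    SectionsOf s (fun l => ((h⁻¹ : X.functionFieldˣ) : X.functionField) * t l) ∧
      SectionsOf (fun l => ((h⁻¹ : X.functionFieldˣ) : X.functionField) * t l) s := by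
  have ht' := ht.twist h
  rw [← hDE] at ht'
  exact ⟨hs.sectionsOf ht'.1, ht'.sectionsOf hs.1⟩

/-- MW's function-field map of a dominant morphism is AV's. -/
theorem ffMap_eq_functionFieldMap (φ : Y ⟶ X) [IsDominant φ] :
    ffMap φ (map_genericPoint φ) = functionFieldMap φ := rfl

/-- MW's function-field map of a dominant morphism is AV's, whatever the proof of dominance. -/
theorem ffMap_eq_functionFieldMap' (φ : Y ⟶ X) [IsDominant φ]
    (h : φ (genericPoint Y) = genericPoint X) :
    ffMap φ h = functionFieldMap φ := rfl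

/-- **SQUARE, divisor form ⟹ family form** (the `square` field of `MW.GeomPackage`):
if `a^* D · b^* D = div h · D²` then the families `(a^* s_i · b^* s_j)` and `h⁻¹ · (s_i s_j)`
generate the same subsheaf of the function field. -/
theorem sectionsOf_square {V : Scheme.{u}} [IsIntegral V] {s : ι → V.functionField}
    {D : CaDiv V} (hs : Generates s D) (a b : V ⟶ V) [IsDominant a] [IsDominant b]
    (h : V.functionFieldˣ)
    (hsq : CaDiv.pullback a D * CaDiv.pullback b D = CaDiv.div h * (D * D)) :
    SectionsOf (fun p : ι × ι => functionFieldMap a (s p.1) * functionFieldMap b (s p.2))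
        (fun p : ι × ι => ((h⁻¹ : V.functionFieldˣ) : V.functionField) * (s p.1 * s p.2)) ∧
      SectionsOf
        (fun p : ι × ι => ((h⁻¹ : V.functionFieldˣ) : V.functionField) * (s p.1 * s p.2))
        (fun p : ι × ι => functionFieldMap a (s p.1) * functionFieldMap b (s p.2)) :=
  sectionsOf_of_eq_div_mul ((hs.pullback a).mul (hs.pullback b)) (hs.mul hs) h hsq

/-- **CUBE up to torsion, divisor form ⟹ family form** (the `cube` field of `MW.GeomPackage`):
if `(g^* D)^d = div h · D^m` then the families `((g^* s_i)^d)` and `h⁻¹ · s_i^m` generate the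
same subsheaf of the function field. -/
theorem sectionsOf_cube {V : Scheme.{u}} [IsIntegral V] {s : ι → V.functionField}
    {D : CaDiv V} (hs : Generates s D) (g : V ⟶ V) [IsDominant g] (d m : ℕ)
    (h : V.functionFieldˣ) (hcube : CaDiv.pullback g D ^ d = CaDiv.div h * D ^ m) :
    SectionsOf (fun i : ι => functionFieldMap g (s i) ^ d)
        (fun i : ι => ((h⁻¹ : V.functionFieldˣ) : V.functionField) * s i ^ m) ∧
      SectionsOf (fun i : ι => ((h⁻¹ : V.functionFieldˣ) : V.functionField) * s i ^ m)
        (fun i : ι => functionFieldMap g (s i) ^ d) :=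
  sectionsOf_of_eq_div_mul ((hs.pullback g).pow d) (hs.pow m) h hcube

/-- **SQUARE up to torsion, divisor form ⟹ family form** (the `square` field of `MW.GeomCore`):
if `(a^* D · b^* D)^d = div h · (D · D)^d` then the families `((a^* s_i · b^* s_j)^d)` and
`h⁻¹ · (s_i s_j)^d` generate the same subsheaf of the function field. -/
theorem sectionsOf_square_pow {V : Scheme.{u}} [IsIntegral V] {s : ι → V.functionField}
    {D : CaDiv V} (hs : Generates s D) (a b : V ⟶ V) [IsDominant a] [IsDominant b] (d : ℕ)
    (h : V.functionFieldˣ)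
    (hsq : (CaDiv.pullback a D * CaDiv.pullback b D) ^ d = CaDiv.div h * (D * D) ^ d) :
    SectionsOf
        (fun p : ι × ι => (functionFieldMap a (s p.1) * functionFieldMap b (s p.2)) ^ d)
        (fun p : ι × ι => ((h⁻¹ : V.functionFieldˣ) : V.functionField) * (s p.1 * s p.2) ^ d) ∧
      SectionsOf
        (fun p : ι × ι => ((h⁻¹ : V.functionFieldˣ) : V.functionField) * (s p.1 * s p.2) ^ d)
        (fun p : ι × ι => (functionFieldMap a (s p.1) * functionFieldMap b (s p.2)) ^ d) :=
  sectionsOf_of_eq_div_mul (((hs.pullback a).mul (hs.pullback b)).pow d) ((hs.mul hs).pow d) h hsq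

end Fermat.Agent.MW.Inst73
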