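/-
helper73, programme MW (S17), brick INST-2c (formal core): from the theorem of the cube up to
`δ`-torsion in functor-of-points form (programme AV, `Pic38.thetaPt_pow_degree_eq_one`) to the
two divisor identities consumed by `MW.GeomCore`:

* `caDiv_square_pow` : `(t_a^* D · t_{-a}^* D)^δ = div h · (D · D)^δ`;
* `caDiv_nsmul_pow`  : `([n]^* D)^δ = div h · D^(δ n²)` for `D` with `cl ([-1]^* D) = cl D`.

Everything is formal from `Pic.map` functoriality, `Pic (Spec K) = 1`, and `PicDiv86.cl`.
-/
import Fermat.Agent.AV.Pic38.CubePts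
import Fermat.Agent.AV.Cube82.Square
import Fermat.Agent.AV.PicDiv86.Cl

set_option autoImplicit false
set_option linter.unusedSectionVars false
set_option linter.style.haveILetI false

universe u

open CategoryTheory AlgebraicGeometry NeronModelInfra GoodReductionJacobian

namespace Fermat.Agent.MW.Inst73

open Fermat.Agent.AV.Pic38 Fermat.Agent.AV.PicDiv86 Fermat.Agent.AV.Cube82

variable {K : Type u} [Field K] {A : Scheme.{u}} {f : A ⟶ Spec (CommRingCat.of K)}
  (G : RelativeGroupLaw K f) (hc : G.IsCommutative)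

/-- The cube class of `L` is `δ`-torsion on all `T`-valued points (output of brick CUBE). -/
def TorsionCube (L : Pic A) (δ : ℕ) : Prop :=
  ∀ {T : Scheme.{u}} (t : T ⟶ Spec (CommRingCat.of K)) (x y z : Pts G hc t),
    thetaPt G hc L x y z ^ δ = 1

variable {G hc}

/-- A class evaluated at a constant point is trivial. -/
theorem ptPic_constPt (L : Pic A) {T : Scheme.{u}} (t : T ⟶ Spec (CommRingCat.of K))
    (a : SchemeHomOver (𝟙 (Spec (CommRingCat.of K))) f) :
    ptPic G hc L (Pts.of G hc (constPt t a)) = 1 := by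
  change Pic.map (t ≫ a.1) L = 1
  rw [Pic.map_comp_apply, Pic.eq_one_of_field K (Pic.map _ L), map_one]

theorem constPt_add_inv (a : SchemeHomOver (𝟙 (Spec (CommRingCat.of K))) f) :
    Pts.of G hc (constPt f a) + Pts.of G hc (constPt f (G.inv (𝟙 _) a)) = 0 := by
  change Pts.of G hc (G.mul f (constPt f a) (constPt f (G.inv (𝟙 _) a))) = Pts.of G hc (G.one f)
  rw [← constPt_mul, G.mul_inv_cancel]
  exact congrArg (Pts.of G hc) (G.one_natural _ _ _ _)

/-- **Theorem of the square up to torsion, Picard form.** -/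
theorem pic_square_pow (L : Pic A) (δ : ℕ) (hδ : TorsionCube G hc L δ)
    (a : SchemeHomOver (𝟙 (Spec (CommRingCat.of K))) f) :
    (Pic.map (translate G a) L * Pic.map (translate G (G.inv (𝟙 _) a)) L) ^ δ = (L ^ 2) ^ δ := by
  set x : Pts G hc f := Pts.of G hc (constPt f a) with hx
  set y : Pts G hc f := Pts.of G hc (constPt f (G.inv (𝟙 _) a)) with hy
  set z : Pts G hc f := Pts.of G hc RelativeGroupLaw.idPoint with hz
  have h := hδ f x y z
  have hxy : x + y = 0 := constPt_add_inv a
  have e1 : ptPic G hc L (x + y + z) = L := by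
    rw [hxy, zero_add]
    change Pic.map (𝟙 A) L = L
    rw [Pic.map_id]; rfl
  have e2 : ptPic G hc L (x + y) = 1 := by rw [hxy, ptPic_zero]
  have e3 : ptPic G hc L (x + z) = Pic.map (translate G a) L := rfl
  have e4 : ptPic G hc L (y + z) = Pic.map (translate G (G.inv (𝟙 _) a)) L := rfl
  have e5 : ptPic G hc L x = 1 := ptPic_constPt L f a
  have e6 : ptPic G hc L y = 1 := ptPic_constPt L f _
  have e7 : ptPic G hc L z = L := by
    change Pic.map (𝟙 A) L = L
    rw [Pic.map_id]; rfl
  unfold thetaPt CubeAlg.theta at h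
  rw [e1, e2, e3, e4, e5, e6, e7] at h
  have e : L / 1 / Pic.map (translate G a) L / Pic.map (translate G (G.inv (𝟙 _) a)) L * 1 * 1 * L =
      L ^ 2 / (Pic.map (translate G a) L * Pic.map (translate G (G.inv (𝟙 _) a)) L) := by
    simp only [div_eq_mul_inv, inv_one, mul_one, mul_inv_rev, pow_two]
    ac_rfl
  have h' : (L ^ 2 / (Pic.map (translate G a) L * Pic.map (translate G (G.inv (𝟙 _) a)) L)) ^ δ
      = 1 := by
    rw [← e]; exact h
  rw [div_pow, div_eq_one] at h'
  exact h'.symm

/-- **`[n]^* L` up to torsion, Picard form**, for symmetric `L`. -/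
theorem pic_nsmul_pow (L : Pic A) (δ : ℕ) (hδ : TorsionCube G hc L δ)
    (hsym : Pic.map (G.inv f RelativeGroupLaw.idPoint).1 L = L) (n : ℕ) :
    Pic.map (G.schemeNsmul n) L ^ δ = L ^ (δ * n ^ 2) := by
  have h := map_schemeNsmul_eq_pow_sq (G := G) (hc := hc) (L ^ δ)
    (fun x y z => by rw [thetaPt_pow]; exact hδ f x y z)
    (by rw [map_pow, hsym]) n
  rw [map_pow, ← pow_mul] at h
  exact h

/-! ### Divisor forms -/

variable [IsIntegral A]

/-- **Theorem of the square up to torsion, divisor form.** -/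
theorem caDiv_square_pow (D : CaDiv A) (δ : ℕ) (hδ : TorsionCube G hc (cl D) δ)
    (a : SchemeHomOver (𝟙 (Spec (CommRingCat.of K))) f)
    [IsDominant (translate G a)] [IsDominant (translate G (G.inv (𝟙 _) a))] :
    ∃ h : A.functionFieldˣ,
      (CaDiv.pullback (translate G a) D * CaDiv.pullback (translate G (G.inv (𝟙 _) a)) D) ^ δ =
        CaDiv.div h * (D * D) ^ δ := by
  rw [← cl_eq_cl_iff, map_pow, map_mul, ← map_cl, ← map_cl, pic_square_pow (G := G) (hc := hc) (cl D) δ hδ a,
    map_pow, map_mul, pow_two]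

/-- **`[n]^* D` up to torsion, divisor form**, for `D` symmetric up to linear equivalence. -/
theorem caDiv_nsmul_pow (D : CaDiv A) (δ : ℕ) (hδ : TorsionCube G hc (cl D) δ)
    (hsym : Pic.map (G.inv f RelativeGroupLaw.idPoint).1 (cl D) = cl D) (n : ℕ)
    [IsDominant (G.schemeNsmul n)] :
    ∃ h : A.functionFieldˣ,
      CaDiv.pullback (G.schemeNsmul n) D ^ δ = CaDiv.div h * D ^ (δ * n ^ 2) := by
  rw [← cl_eq_cl_iff, map_pow, ← map_cl, pic_nsmul_pow (G := G) (hc := hc) (cl D) δ hδ hsym n, map_pow]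

end Fermat.Agent.MW.Inst73
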